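import Fermat.Agent.Raising.LocalData.Common
import Fermat.Agent.Raising.ScalarBlock

/-!
# Scalar Frobenius

The six coordinates of `Fermat.Agent.LevelLowering.Scalar.Line`; the lower right entry of Frobenius,
hence the trace, is determined by the determinant.
-/

noncomputable section

namespace Fermat.Agent.Raising

open IsLocalRing Matrix Module Fermat.Agent.LevelLowering Fermat.Agent.Gal Fermat.Agent.TW
  Fermat.Agent.PT

local notation "PS" => MvPowerSeries

variable {𝒪 : Type} [CommRing 𝒪] [IsDomain 𝒪] [IsDiscreteValuationRing 𝒪]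
  [IsAdicComplete (maximalIdeal 𝒪) 𝒪] {p : ℕ} [Fact p.Prime]
variable {ρbar : ResidualGaloisRep (ResidueField 𝒪)}
  {bbar : Basis (Fin 2) (ResidueField 𝒪) ρbar.V}

variable (P : RaisedPrime p ρbar bbar)

/-- **The local data at a scalar prime.** -/
theorem exists_localKind_scalar [CharP (ResidueField 𝒪) p] (hp2 : p ≠ 2) {c : ResidueField 𝒪}
    (hs : rbar bbar P.φ = c • 1) : Nonempty (LocalKind P) := by
  have h2 : (2 : ResidueField 𝒪) ≠ 0 := RaisedPrime.residue_two_ne_zero hp2
  have hX : P.frobMat = (residue 𝒪 P.ε * c) • 1 := by rw [RaisedPrime.frobMat, hs, smul_smul]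
  obtain ⟨hq, hc⟩ := LocalData.eq_one_of_scalar P.trace_frobMat P.det_frobMat hX
  have hφ : rbar bbar P.φ = residue 𝒪 P.ε • 1 := by
    rw [P.rbar_frob, hX, hc, one_smul]
  obtain ⟨u, hu⟩ := isUnit_iff_exists_inv'.mp ((residue_ne_zero_iff_isUnit (2 : 𝒪)).mp
    (by rwa [map_ofNat]))
  set h₀ : 𝒪 := u * ((P.q : 𝒪) - 1) with hh₀
  have hh : h₀ ∈ maximalIdeal 𝒪 := by
    rw [← residue_eq_zero_iff, hh₀, map_mul, map_sub, map_natCast, map_one, hq, sub_self, mul_zero]
  have h2h : 2 * h₀ = (P.q : 𝒪) - 1 := by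
    rw [hh₀, ← mul_assoc, mul_comm 2 u, hu, one_mul]
  have hqu : IsUnit (P.q : 𝒪) := by
    rw [← residue_ne_zero_iff_isUnit, map_natCast, hq]
    exact one_ne_zero
  obtain ⟨v, hv⟩ := isUnit_iff_exists_inv'.mp (show IsUnit (algebraMap 𝒪 (PS (Fin 6) 𝒪) (P.q : 𝒪) +
      MvPowerSeries.X 0) by
    rw [MvPowerSeries.isUnit_iff_constantCoeff, ← MvPowerSeries.c_eq_algebraMap]
    simpa using hqu)
  have hmem : ∀ (T : Type) [CommRing T] [IsLocalRing T] [Algebra 𝒪 T]
      [IsAdicComplete (maximalIdeal T) T] {Φ N : Matrix (Fin 2) (Fin 2) T},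
      P.IsLift Φ N → ∀ k, Scalar.coords (algebraMap 𝒪 T P.ε) (P.q : T) Φ N k ∈ maximalIdeal T :=
    fun T _ _ _ _ Φ N h k => by
      have hF : ∀ i j, residue T (Φ i j) = (if i = j then residue T (algebraMap 𝒪 T P.ε) else 0) :=
        fun i j => by
          have := h.one_frob_sub_mem P.ε hφ i j
          rw [← residue_eq_zero_iff, map_sub, sub_eq_zero] at this
          rw [this]
          split_ifs <;> simp
      fin_cases k
      · show _ - _ ∈ maximalIdeal T
        rw [← residue_eq_zero_iff, map_sub, map_mul, hF, if_pos rfl, ← map_mul, ← map_mul, P.sign,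
          map_one, map_one, ← map_natCast (algebraMap 𝒪 T), ← h.resHom_residue, map_natCast, hq,
          map_one, sub_self]
      · show _ * _ ∈ maximalIdeal T
        rw [← residue_eq_zero_iff, map_mul, hF, if_neg (by decide), mul_zero]
      · show _ * _ ∈ maximalIdeal T
        rw [← residue_eq_zero_iff, map_mul, hF, if_neg (by decide), mul_zero]
      · exact h.mono _ _
      · exact h.mono _ _
      · exact h.mono _ _
  exact ⟨{
    e := 6
    B := scalarBlock 𝒪 h₀ hh
    w_le := (P.invariants_eq_three hs).ge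
    coord := fun T _ _ _ _ Φ N => Scalar.coords (algebraMap 𝒪 T P.ε) (P.q : T) Φ N
    coord_mem := hmem
    coord_map := fun T T' _ _ _ _ _ _ _ _ f _ Φ N _ k => by
      have := Scalar.map_coords f.toRingHom (algebraMap 𝒪 T P.ε) (P.q : T) Φ N k
      simpa [AlgHom.commutes] using this
    reach := fun F _ _ _ _ _ _ Φ N h hNN hΦN => by
      have hx := hmem F h
      have hε := P.algebraMap_sign F
      have hr := P.q_mul_self_ne_one F
      have hur : N = 0 → (scalarUr 𝒪).Reaches
          (Scalar.coords (algebraMap 𝒪 F P.ε) (P.q : F) Φ N) := fun hN =>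
        scalarUr_reaches hx (by simp [Scalar.coords, hN]) (by simp [Scalar.coords, hN])
          (by simp [Scalar.coords, hN])
      have hst : Φ.trace = algebraMap 𝒪 F P.ε * ((P.q : F) + 1) → (scalarSt 𝒪 h₀ hh).Reaches
          (Scalar.coords (algebraMap 𝒪 F P.ε) (P.q : F) Φ N) := fun ht => by
        obtain ⟨e, he, hline⟩ := Scalar.exists_onLine (h := algebraMap 𝒪 F h₀) hε (by
          have := congrArg (algebraMap 𝒪 F) h2h
          simpa [map_ofNat] using this) hr Φ N ht h.det
            (Matrix.isNilpotent_trace_of_isNilpotent ⟨2, (pow_two N).trans hNN⟩).eq_zero hNN hΦN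
        exact scalarSt_reaches h.loc hx he hline
      have hno : Φ.trace ≠ -(algebraMap 𝒪 F P.ε * ((P.q : F) + 1)) := fun ht => by
        have := h.add_one_eq_zero h2 ht
        rw [hq, one_add_one_eq_two] at this
        exact h2 this
      refine ⟨?_, hur, hst, fun ht => absurd ht hno⟩
      by_cases hN : N = 0
      · exact ⟨(scalarBlock 𝒪 h₀ hh).ur, hur hN⟩
      · exact ⟨(scalarBlock 𝒪 h₀ hh).st,
          hst ((RaisedPrime.trace_of_ne_zero h hN hΦN).resolve_right hno)⟩
    G := P.degMat (algebraMap 𝒪 _ P.ε * ((algebraMap 𝒪 _ (P.q : 𝒪) + MvPowerSeries.X 0) +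
      (algebraMap 𝒪 _ (P.q : 𝒪) + MvPowerSeries.X 1 * MvPowerSeries.X 2) * v))
    G_det := P.degMat_det _ (by
      have h0 : ∀ k, (scalarBlock 𝒪 h₀ hh).pt.hom (MvPowerSeries.X k) = 0 :=
        fun k => LocalMap.hom_X _ k
      have h1 := congrArg (scalarBlock 𝒪 h₀ hh).pt.hom hv
      simp only [map_mul, map_add, AlgHom.commutes, map_one, h0, add_zero] at h1
      simp only [map_mul, map_add, AlgHom.commutes, h0, mul_zero, add_zero, RaisedPrime.trConst,
        map_one]
      linear_combination algebraMap 𝒪 _ P.ε * h1)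
    G_val := fun T _ _ _ _ Φ N h a b => P.degMat_val (by
      have h1 := congrArg (evalSeries _ (hmem T h)) hv
      simp only [map_mul, map_add, map_one, map_natCast, evalSeries_X] at h1
      simp only [map_mul, map_add, AlgHom.commutes, map_natCast, evalSeries_X]
      have hdet := h.det
      rw [det_fin_two] at hdet
      generalize evalSeries (Scalar.coords (algebraMap 𝒪 T P.ε) (P.q : T) Φ N) (hmem T h) v = V
        at h1 ⊢
      simp only [Scalar.coords, Matrix.cons_val_zero, Matrix.cons_val_one, Matrix.cons_val] at h1 ⊢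
      rw [trace_fin_two]
      have hE := P.algebraMap_sign T
      generalize algebraMap 𝒪 T P.ε = E at h1 hE ⊢
      linear_combination (Φ 0 0 + E * Φ 0 1 * Φ 1 0 * V) * hE + Φ 1 1 * h1 - E * V * hdet) a b
    tangent_zero := fun T _ _ _ _ _ _ hres ρ b hb hdet δ hδ =>
      Scalar.mem_locB1_decQ_of_eq_zero _ (tanCocycle_mem_Z1 hb hdet δ) P.lies
        (Scalar.tanCocycle_eq_zero_on_decomposition hb hdet P.prime P.lies P.frob P.tame P.inertia
          P.sign hφ δ hδ) }⟩

end Fermat.Agent.Raising
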