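import Fermat.Agent.Raising.LocalData.Common
import Fermat.Agent.Raising.TwoStBlock

/-!
# `q` congruent to `-1`

Coordinates: `n₊` an entry of `(ε Φ + q) N`, `n₋` an entry of `(ε Φ - q) N` and
`a = tr Φ - ε (q + 1)`.  At a Steinberg point of either sign the other one vanishes.
-/

noncomputable section

namespace Fermat.Agent.Raising

open IsLocalRing Matrix Module Fermat.Agent.LevelLowering Fermat.Agent.Gal Fermat.Agent.TW
  Fermat.Agent.PT

local notation "PS" => MvPowerSeries

variable {𝒪 : Type} [CommRing 𝒪] [IsDomain 𝒪] [IsDiscreteValuationRing 𝒪]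
  [IsAdicComplete (maximalIdeal 𝒪) 𝒪] {p : ℕ} [Fact p.Prime]
variable {ρbar : ResidualGaloisRep (ResidueField 𝒪)}
  {bbar : Basis (Fin 2) (ResidueField 𝒪) ρbar.V}

section Reaches

variable {F : Type} [CommRing F] [IsLocalRing F] [Algebra 𝒪 F] [IsAdicComplete (maximalIdeal F) F]

lemma twoStUr_reaches {x : Fin 3 → F} (hx : ∀ c, x c ∈ maximalIdeal F) (h0 : x 0 = 0)
    (h1 : x 1 = 0) : (twoStUr 𝒪).Reaches x := by
  refine LocalMap.Passes.reaches ⟨fun _ => x 2, fun _ => hx 2, fun c => ?_⟩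
    (![0, 0, MvPolynomial.X 0] : Fin 3 → MvPolynomial (Fin 1) 𝒪)
    (fun c => by fin_cases c <;> simp [twoStUr]) hx
  fin_cases c
  · exact h0.trans (map_zero _).symm
  · exact h1.trans (map_zero _).symm
  · exact (evalSeries_X (𝒪 := 𝒪) (n := 1) (fun _ => x 2) _ 0).symm

lemma twoStPlus_reaches {x : Fin 3 → F} (hx : ∀ c, x c ∈ maximalIdeal F) (h1 : x 1 = 0)
    (h2 : x 2 = 0) : (twoStPlus 𝒪).Reaches x := by
  refine LocalMap.Passes.reaches ⟨fun _ => x 0, fun _ => hx 0, fun c => ?_⟩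
    (![MvPolynomial.X 0, 0, 0] : Fin 3 → MvPolynomial (Fin 1) 𝒪)
    (fun c => by fin_cases c <;> simp [twoStPlus]) hx
  fin_cases c
  · exact (evalSeries_X (𝒪 := 𝒪) (n := 1) (fun _ => x 0) _ 0).symm
  · exact h1.trans (map_zero _).symm
  · exact h2.trans (map_zero _).symm

lemma twoStMinus_reaches {d : 𝒪} (hd : d ∈ maximalIdeal 𝒪) {x : Fin 3 → F}
    (hx : ∀ c, x c ∈ maximalIdeal F) (h0 : x 0 = 0) (h2 : x 2 = -algebraMap 𝒪 F d) :
    (twoStMinus 𝒪 d hd).Reaches x := by
  refine LocalMap.Passes.reaches ⟨fun _ => x 1, fun _ => hx 1, fun c => ?_⟩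
    (![0, MvPolynomial.X 0, -MvPolynomial.C d] : Fin 3 → MvPolynomial (Fin 1) 𝒪)
    (fun c => by
      fin_cases c
      · simp [twoStMinus]
      · simp [twoStMinus]
      · show ((-MvPolynomial.C d : MvPolynomial (Fin 1) 𝒪) : PS (Fin 1) 𝒪) =
          -algebraMap 𝒪 (PS (Fin 1) 𝒪) d
        rw [← MvPolynomial.coeToMvPowerSeries.ringHom_apply, map_neg]
        simp [MvPowerSeries.c_eq_algebraMap]) hx
  fin_cases c
  · exact h0.trans (map_zero _).symm
  · exact (evalSeries_X (𝒪 := 𝒪) (n := 1) (fun _ => x 1) _ 0).symm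
  · exact h2.trans (((congrArg Neg.neg (AlgHom.commutes _ d)).symm.trans (map_neg _ _).symm))

end Reaches

variable (P : RaisedPrime p ρbar bbar)

/-- The coordinates `(n₊, n₋, a)`. -/
def twoStCoord (ij kl : Fin 2 × Fin 2) {T : Type} [CommRing T] [Algebra 𝒪 T]
    (Φ N : Matrix (Fin 2) (Fin 2) T) : Fin 3 → T :=
  ![((algebraMap 𝒪 T P.ε • Φ + ((P.q : ℤ) : T) • 1) * N) ij.1 ij.2,
    ((algebraMap 𝒪 T P.ε • Φ + ((-(P.q : ℤ) : ℤ) : T) • 1) * N) kl.1 kl.2,
    Φ.trace - algebraMap 𝒪 T P.trConst]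

/-- **The local data at a prime congruent to `-1`.** -/
theorem exists_localKind_twoSt [CharP (ResidueField 𝒪) p] (hp2 : p ≠ 2)
    (hns : ∀ c : ResidueField 𝒪, rbar bbar P.φ ≠ c • 1)
    (hq : (P.q : ResidueField 𝒪) + 1 = 0) : Nonempty (LocalKind P) := by
  classical
  have h2 : (2 : ResidueField 𝒪) ≠ 0 := RaisedPrime.residue_two_ne_zero hp2
  have hq' : (P.q : ResidueField 𝒪) = -1 := eq_neg_of_add_eq_zero_left hq
  obtain ⟨ij, kl, hsign⟩ := LocalData.exists_sign_entries h2 (P.trace_frobMat.trans hq)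
    (P.det_frobMat.trans hq')
  obtain ⟨π, hπ⟩ := IsDiscreteValuationRing.exists_irreducible 𝒪
  obtain ⟨d, hd, hd0, hdeq⟩ : ∃ d : 𝒪, d ∈ maximalIdeal 𝒪 ∧ d ≠ 0 ∧
      (2 * P.trConst ≠ 0 → d = 2 * P.trConst) := by
    by_cases h0 : 2 * P.trConst = 0
    · exact ⟨π, (mem_maximalIdeal _).mpr hπ.not_isUnit, hπ.ne_zero, fun h => absurd h0 h⟩
    · refine ⟨_, ?_, h0, fun _ => rfl⟩
      rw [← residue_eq_zero_iff, RaisedPrime.trConst, map_mul, map_mul, map_add, map_natCast,
        map_one, hq, mul_zero, mul_zero]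
  have hmem : ∀ (T : Type) [CommRing T] [IsLocalRing T] [Algebra 𝒪 T]
      [IsAdicComplete (maximalIdeal T) T] {Φ N : Matrix (Fin 2) (Fin 2) T},
      P.IsLift Φ N → ∀ c, twoStCoord P ij kl Φ N c ∈ maximalIdeal T :=
    fun T _ _ _ _ Φ N h c => by
      have hN : ∀ (M : Matrix (Fin 2) (Fin 2) T) i j, (M * N) i j ∈ maximalIdeal T :=
        fun M i j => by
          rw [Matrix.mul_apply]
          exact sum_mem fun k _ => Ideal.mul_mem_left _ _ (h.mono _ _)
      fin_cases c
      · exact hN _ _ _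
      · exact hN _ _ _
      · exact h.trace_sub_mem
  exact ⟨{
    e := 3
    B := twoStBlock 𝒪 d hd hd0
    w_le := P.one_le_invariants h2 hns
    coord := fun T _ _ _ _ Φ N => twoStCoord P ij kl Φ N
    coord_mem := hmem
    coord_map := fun T T' _ _ _ _ _ _ _ _ f _ Φ N _ c => by
      fin_cases c <;>
        simp [twoStCoord, trace_fin_two, Matrix.mul_apply, Fin.sum_univ_two, AlgHom.commutes,
          Matrix.one_apply, apply_ite f]
    reach := fun F _ _ _ _ _ _ Φ N h _ hΦN => by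
      have hx := hmem F h
      have hε := P.algebraMap_sign F
      have hr := P.q_mul_self_ne_one F
      have hde : d = 2 * P.trConst := hdeq fun h0 => by
        have h1 := congrArg (algebraMap 𝒪 F) h0
        simp only [RaisedPrime.trConst, map_mul, map_add, map_natCast, map_one, map_ofNat,
          map_zero, mul_eq_zero, OfNat.ofNat_ne_zero, false_or, left_ne_zero_of_mul_eq_one hε] at h1
        exact Nat.succ_ne_zero P.q (by exact_mod_cast h1)
      have hur : N = 0 → (twoStUr 𝒪).Reaches (twoStCoord P ij kl Φ N) := fun hN =>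
        twoStUr_reaches hx (by simp [twoStCoord, hN]) (by simp [twoStCoord, hN])
      have hplus : Φ.trace = algebraMap 𝒪 F P.ε * ((P.q : F) + 1) →
          (twoStPlus 𝒪).Reaches (twoStCoord P ij kl Φ N) := fun ht => by
        refine twoStPlus_reaches hx ?_ (by simp [twoStCoord, RaisedPrime.trConst, ht])
        have h1 := Scalar.shifted_mul_eq_zero hε hr Φ N ht h.det hΦN
        rw [sub_eq_add_neg, ← neg_smul] at h1
        simpa [twoStCoord] using congrFun (congrFun h1 kl.1) kl.2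
      have hminus : Φ.trace = -(algebraMap 𝒪 F P.ε * ((P.q : F) + 1)) →
          (twoStMinus 𝒪 d hd).Reaches (twoStCoord P ij kl Φ N) := fun ht => by
        refine twoStMinus_reaches hd hx ?_ ?_
        · have h1 := Scalar.shifted_mul_eq_zero (ε := -algebraMap 𝒪 F P.ε) (by rw [neg_mul_neg, hε])
            hr Φ N (by rw [ht, neg_mul]) h.det hΦN
          rw [neg_smul, ← neg_add', neg_mul, neg_eq_zero] at h1
          simpa [twoStCoord] using congrFun (congrFun h1 ij.1) ij.2
        · simp [twoStCoord, hde, RaisedPrime.trConst, ht, map_ofNat]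
          ring
      obtain ⟨km, hkm, hkm'⟩ : ∃ k, k ≠ (twoStBlock 𝒪 d hd hd0).ur ∧
          (twoStBlock 𝒪 d hd hd0).comp k = twoStMinus 𝒪 d hd :=
        ⟨(2 : Fin 3), (by decide : (2 : Fin 3) ≠ 0), rfl⟩
      refine ⟨?_, hur, hplus, fun ht => ⟨km, hkm, hkm' ▸ hminus ht⟩⟩
      · by_cases hN : N = 0
        · exact ⟨(twoStBlock 𝒪 d hd hd0).ur, hur hN⟩
        · rcases RaisedPrime.trace_of_ne_zero h hN hΦN with ht | ht
          · exact ⟨(twoStBlock 𝒪 d hd hd0).st, hplus ht⟩
          · exact ⟨km, hkm' ▸ hminus ht⟩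
    G := P.degMat (MvPowerSeries.X 2 + algebraMap 𝒪 _ P.trConst)
    G_det := P.degMat_det _ (by
      rw [map_add, AlgHom.commutes, LocalMap.hom_X]
      exact zero_add _)
    G_val := fun T _ _ _ _ Φ N h a b => P.degMat_val (by
      rw [map_add, AlgHom.commutes, evalSeries_X]
      exact sub_add_cancel _ _) a b
    tangent_zero := fun T _ _ _ _ _ _ hres ρ b hb hdet δ hδ => by
      refine RaisedPrime.tanCocycle_mem_locB1 hb hdet δ h2 hns ?_ ?_
      · obtain ⟨htr, htw⟩ := RaisedPrime.monoTan_spec (P := P) hb hdet δ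
        rw [hq', neg_smul, one_smul] at htw
        refine hsign _ htr htw ?_ ?_
        · have h1 := (RaisedPrime.tangent_mono_coord (P := P) hb δ P.ε (P.q : ℤ)
            ij.1 ij.2).symm.trans
            (hδ 0)
          rw [Int.cast_natCast, hq', neg_smul, one_smul, ← sub_eq_add_neg] at h1
          exact h1
        · have h1 := (RaisedPrime.tangent_mono_coord (P := P) hb δ P.ε (-(P.q : ℤ))
            kl.1 kl.2).symm.trans
            (hδ 1)
          rw [Int.cast_neg, Int.cast_natCast, hq', neg_neg, one_smul] at h1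
          exact h1
      · have h1 := hδ 2
        simp only [twoStCoord, Matrix.cons_val, RaisedPrime.tangent_sub] at h1
        rwa [δ.2.2.1, sub_zero] at h1 }⟩

end Fermat.Agent.Raising
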