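import Fermat.Agent.Raising.LocalData.Ord
import Fermat.Agent.Raising.LocalData.Scalar
import Fermat.Agent.Raising.LocalData.TwoSt

/-!
# Local data at every raised prime

Every raised prime has local data (`exists_localKind`): Frobenius is residually scalar, or `q` is
congruent to `-1`, or neither.
-/

noncomputable section

namespace Fermat.Agent.Raising

open IsLocalRing Matrix Module Fermat.Agent.LevelLowering Fermat.Agent.Gal Fermat.Agent.TW
  Fermat.Agent.PT

variable {𝒪 : Type} [CommRing 𝒪] [IsDomain 𝒪] [IsDiscreteValuationRing 𝒪]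
  [IsAdicComplete (maximalIdeal 𝒪) 𝒪] {p : ℕ} [Fact p.Prime]

/-- **Every raised prime has local data.** -/
theorem exists_localKind [CharP (ResidueField 𝒪) p] {ρbar : ResidualGaloisRep (ResidueField 𝒪)}
    {bbar : Basis (Fin 2) (ResidueField 𝒪) ρbar.V} (P : RaisedPrime p ρbar bbar) (hp2 : p ≠ 2) :
    Nonempty (LocalKind P) := by
  by_cases hs : ∃ c : ResidueField 𝒪, rbar bbar P.φ = c • 1
  · obtain ⟨c, hc⟩ := hs
    exact exists_localKind_scalar P hp2 hc
  push Not at hs
  by_cases hq : (P.q : ResidueField 𝒪) + 1 = 0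
  · exact exists_localKind_twoSt P hp2 hs hq
  · exact exists_localKind_ord P hp2 hs hq

end Fermat.Agent.Raising
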