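import Mathlib.LinearAlgebra.Matrix.Adjugate
import Mathlib.LinearAlgebra.Matrix.Determinant.Basic
import Mathlib.LinearAlgebra.Matrix.Trace
import Mathlib.Tactic.FieldSimp
import Mathlib.Tactic.LinearCombination
import Mathlib.Tactic.Module

/-!
# Two by two matrices at a raised prime

With `X` of trace `q + 1` and determinant `q`, a trace zero `S` with `X S = q S X` is determined by
one entry, or by one entry of each of `(X - 1) S` and `(X + 1) S` when `q = -1`; commutators with a
nonscalar matrix fill the plane orthogonal to its centraliser.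
-/

namespace Fermat.Agent.Raising.LocalData

open Matrix

variable {K : Type*} [Field K]

/-- Cayley–Hamilton. -/
theorem mul_self_eq (X : Matrix (Fin 2) (Fin 2) K) : X * X = X.trace • X - X.det • 1 := by
  ext i j
  fin_cases i <;> fin_cases j <;>
    simp [Matrix.mul_apply, Fin.sum_univ_two, trace_fin_two, det_fin_two] <;> ring

/-- Cayley–Hamilton, polarised at a trace zero matrix. -/
theorem mul_add_mul_eq (X S : Matrix (Fin 2) (Fin 2) K) (hS : S.trace = 0) :
    X * S + S * X = X.trace • S + (X * S).trace • 1 := by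
  rw [trace_fin_two] at hS
  ext i j
  fin_cases i <;> fin_cases j <;>
    simp [Matrix.mul_apply, Fin.sum_univ_two, trace_fin_two]
  · linear_combination -X 1 1 * hS
  · linear_combination X 0 1 * hS
  · linear_combination X 1 0 * hS
  · linear_combination -X 0 0 * hS

/-- The shifted matrix kills the twisted centraliser. -/
theorem sub_mul_eq_zero {q : K} (hq : q + 1 ≠ 0) {X S : Matrix (Fin 2) (Fin 2) K}
    (htr : X.trace = q + 1) (hdet : X.det = q) (hS : S.trace = 0) (h : X * S = q • (S * X)) :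
    (X - q • 1) * S = 0 := by
  have h1 := mul_add_mul_eq X S hS
  rw [htr] at h1
  have h2 : (q + 1) • ((X - q • 1) * S) = (q * (X * S).trace) • (1 : Matrix (Fin 2) (Fin 2) K) := by
    rw [sub_mul, smul_mul_assoc, one_mul]
    linear_combination (norm := module) q • h1 + h
  have hd : ((X - q • 1 : Matrix (Fin 2) (Fin 2) K)).det = 0 := by
    rw [trace_fin_two] at htr
    rw [det_fin_two] at hdet
    simp [det_fin_two]
    linear_combination hdet - q * htr
  have h3 := congrArg Matrix.det h2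
  rw [det_smul, det_mul, hd, zero_mul, mul_zero, det_smul, det_one, mul_one, eq_comm,
    Fintype.card_fin, pow_eq_zero_iff two_ne_zero] at h3
  rw [h3, zero_smul] at h2
  exact (smul_eq_zero.mp h2).resolve_left hq

/-- One entry detects the trace zero matrices killed by a nonzero matrix. -/
theorem exists_entry {M : Matrix (Fin 2) (Fin 2) K} (hM : M ≠ 0) :
    ∃ ij : Fin 2 × Fin 2, ∀ S : Matrix (Fin 2) (Fin 2) K, S.trace = 0 → M * S = 0 →
      S ij.1 ij.2 = 0 → S = 0 := by
  obtain h | h : (M 0 1 ≠ 0 ∨ M 1 0 = 0 ∧ M 1 1 ≠ 0) ∨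
      (M 0 1 = 0 ∧ (M 1 0 ≠ 0 ∨ M 0 0 ≠ 0)) := by
    by_cases hb : M 0 1 = 0
    · by_cases hc : M 1 0 = 0
      · by_cases hd : M 1 1 = 0
        · exact Or.inr ⟨hb, Or.inr fun ha => hM (by
            ext i j; fin_cases i <;> fin_cases j <;> simp [*])⟩
        · exact Or.inl (Or.inr ⟨hc, hd⟩)
      · exact Or.inr ⟨hb, Or.inl hc⟩
    · exact Or.inl (Or.inl hb)
  · refine ⟨(0, 1), fun S hS e h0 => ?_⟩
    rw [trace_fin_two, add_eq_zero_iff_eq_neg'] at hS
    have e00 := congrFun (congrFun e 0) 0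
    have e01 := congrFun (congrFun e 0) 1
    have e10 := congrFun (congrFun e 1) 0
    have e11 := congrFun (congrFun e 1) 1
    simp [Matrix.mul_apply, Fin.sum_univ_two, h0, hS] at e00 e01 e10 e11
    rcases h with hb | ⟨hc, hd⟩ <;> ext i j <;> fin_cases i <;> fin_cases j <;> simp_all
  · refine ⟨(1, 0), fun S hS e h0 => ?_⟩
    rw [trace_fin_two, add_eq_zero_iff_eq_neg'] at hS
    have e00 := congrFun (congrFun e 0) 0
    have e01 := congrFun (congrFun e 0) 1
    have e10 := congrFun (congrFun e 1) 0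
    have e11 := congrFun (congrFun e 1) 1
    simp [Matrix.mul_apply, Fin.sum_univ_two, h0, hS] at e00 e01 e10 e11
    rcases h with ⟨hb, hc | ha⟩ <;> ext i j <;> fin_cases i <;> fin_cases j <;> simp_all

/-- **The detecting entry.** -/
theorem exists_twist_entry {q : K} (hq : q + 1 ≠ 0) {X : Matrix (Fin 2) (Fin 2) K}
    (htr : X.trace = q + 1) (hdet : X.det = q) (hX : X ≠ q • 1) :
    ∃ ij : Fin 2 × Fin 2, ∀ S : Matrix (Fin 2) (Fin 2) K, S.trace = 0 → X * S = q • (S * X) →
      S ij.1 ij.2 = 0 → S = 0 := by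
  obtain ⟨ij, hij⟩ := exists_entry (M := X - q • 1) (sub_ne_zero.mpr hX)
  exact ⟨ij, fun S hS h => hij S hS (sub_mul_eq_zero hq htr hdet hS h)⟩

/-- **The two detecting entries for `q = -1`.** -/
theorem exists_sign_entries (h2 : (2 : K) ≠ 0) {X : Matrix (Fin 2) (Fin 2) K}
    (htr : X.trace = 0) (hdet : X.det = -1) :
    ∃ ij kl : Fin 2 × Fin 2, ∀ S : Matrix (Fin 2) (Fin 2) K, S.trace = 0 → X * S = -(S * X) →
      ((X - 1) * S) ij.1 ij.2 = 0 → ((X + 1) * S) kl.1 kl.2 = 0 → S = 0 := by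
  have hsq : X * X = 1 := by
    rw [mul_self_eq, htr, hdet]
    simp
  have hne : ∀ c : K, c ≠ 0 → X ≠ c • 1 := fun c hc h => by
    rw [h, trace_smul, trace_one, smul_eq_mul, Fintype.card_fin, Nat.cast_ofNat] at htr
    exact mul_ne_zero hc h2 htr
  obtain ⟨ij, hij⟩ := exists_entry (M := X + 1)
    (fun h => hne (-1) (by simp) (by rw [neg_smul, one_smul]; exact eq_neg_of_add_eq_zero_left h))
  obtain ⟨kl, hkl⟩ := exists_entry (M := X - 1)
    (fun h => hne 1 one_ne_zero (by rw [one_smul]; exact sub_eq_zero.mp h))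
  refine ⟨ij, kl, fun S hS h e1 e2 => ?_⟩
  have hXS : (X * S).trace = 0 := by
    have h1 := congrArg Matrix.trace h
    rw [trace_neg, trace_mul_comm S X, eq_neg_iff_add_eq_zero, ← two_mul] at h1
    exact (mul_eq_zero.mp h1).resolve_left h2
  have a := hij ((X - 1) * S) (by rw [sub_mul, one_mul, trace_sub, hXS, hS, sub_zero])
    (by rw [← mul_assoc, add_mul, mul_sub, one_mul, mul_one, hsq,
      show (1 - X + (X - 1) : Matrix (Fin 2) (Fin 2) K) = 0 by abel, zero_mul]) e1
  have b := hkl ((X + 1) * S) (by rw [add_mul, one_mul, trace_add, hXS, hS, add_zero])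
    (by rw [← mul_assoc, sub_mul, mul_add, one_mul, mul_one, hsq,
      show (1 + X - (X + 1) : Matrix (Fin 2) (Fin 2) K) = 0 by abel, zero_mul]) e2
  have hd : (2 : K) • S = 0 := by
    rw [sub_mul, one_mul] at a
    rw [add_mul, one_mul] at b
    linear_combination (norm := module) b - a
  exact (smul_eq_zero.mp hd).resolve_left h2

/-- **Commutators with a nonscalar matrix.** -/
theorem exists_commutator {Φ Z : Matrix (Fin 2) (Fin 2) K} (hΦ : ∀ c : K, Φ ≠ c • 1)
    (hZ : Z.trace = 0) (hZΦ : (Z * Φ).trace = 0) : ∃ X, Φ * X - X * Φ = Z := by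
  rw [trace_fin_two] at hZ
  simp only [trace_fin_two, Matrix.mul_apply, Fin.sum_univ_two] at hZΦ
  have h11 : Z 1 1 = -Z 0 0 := by linear_combination hZ
  rw [h11] at hZΦ
  by_cases hb : Φ 0 1 = 0
  swap
  · refine ⟨!![-Z 0 1 / Φ 0 1, 0; Z 0 0 / Φ 0 1, 0], ?_⟩
    ext i j
    fin_cases i <;> fin_cases j <;>
      simp [Matrix.mul_apply, Matrix.vecMul, dotProduct, Fin.sum_univ_two, h11] <;> field_simp <;>
      first | ring1 | linear_combination -hZΦ
  by_cases hc : Φ 1 0 = 0
  swap
  · refine ⟨!![Z 1 0 / Φ 1 0, -Z 0 0 / Φ 1 0; 0, 0], ?_⟩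
    ext i j
    fin_cases i <;> fin_cases j <;>
      simp [Matrix.mul_apply, Matrix.vecMul, dotProduct, Fin.sum_univ_two, h11] <;> field_simp <;>
      first | ring1 | linear_combination -hZΦ
  have hae : Φ 0 0 - Φ 1 1 ≠ 0 := fun h => hΦ (Φ 0 0) (by
    rw [sub_eq_zero] at h
    ext i j; fin_cases i <;> fin_cases j <;> simp [hb, hc, h])
  rw [hb, hc] at hZΦ
  have hz : Z 0 0 = 0 := by
    have : Z 0 0 * (Φ 0 0 - Φ 1 1) = 0 := by linear_combination hZΦ
    exact (mul_eq_zero.mp this).resolve_right hae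
  refine ⟨!![0, Z 0 1 / (Φ 0 0 - Φ 1 1); -Z 1 0 / (Φ 0 0 - Φ 1 1), 0], ?_⟩
  ext i j
  fin_cases i <;> fin_cases j <;>
    simp [Matrix.mul_apply, Matrix.vecMul, dotProduct, Fin.sum_univ_two, h11, hb, hc, hz] <;>
      field_simp; ring

/-- A matrix with trace `q + 1`, determinant `q` and scalar is the identity and `q = 1`. -/
theorem eq_one_of_scalar {q c : K} {X : Matrix (Fin 2) (Fin 2) K}
    (htr : X.trace = q + 1) (hdet : X.det = q) (hX : X = c • 1) : q = 1 ∧ c = 1 := by
  subst hX
  rw [trace_smul, trace_one, smul_eq_mul, Fintype.card_fin, Nat.cast_ofNat] at htr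
  rw [det_smul, det_one, mul_one, Fintype.card_fin] at hdet
  have hc : c = 1 := sub_eq_zero.mp (pow_eq_zero_iff two_ne_zero |>.mp
    (show (c - 1) ^ 2 = 0 by linear_combination hdet - htr))
  subst hc
  exact ⟨by linear_combination -hdet, rfl⟩

end Fermat.Agent.Raising.LocalData
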