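import Fermat.Agent.Raising.LocalData.Alg
import Fermat.Agent.Raising.LocalKind
import Fermat.Agent.TW.AdIrred
import Fermat.Agent.TW.Flat.Cocycle

/-!
# Common facts at a raised prime

The residual Frobenius, lifts at points, invariants of the decomposition group and classes of
tangent vectors.
-/

noncomputable section

namespace Fermat.Agent.Raising

open IsLocalRing Matrix Module Fermat.Agent.LevelLowering Fermat.Agent.Gal Fermat.Agent.TW
  Fermat.Agent.PT Fermat.Agent.PT.Lv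

local notation "Qbar" => AlgebraicClosure ℚ

variable {𝒪 : Type} [CommRing 𝒪] [IsDomain 𝒪] [IsDiscreteValuationRing 𝒪]
  {p : ℕ}
variable {ρbar : ResidualGaloisRep (ResidueField 𝒪)}
  {bbar : Basis (Fin 2) (ResidueField 𝒪) ρbar.V}

local notation "PS" => MvPowerSeries

namespace RaisedPrime

variable (P : RaisedPrime p ρbar bbar)

/-- The normalised residual Frobenius. -/
def frobMat : M2 (ResidueField 𝒪) := residue 𝒪 P.ε • rbar bbar P.φ

theorem residue_sign : residue 𝒪 P.ε * residue 𝒪 P.ε = 1 := by rw [← map_mul, P.sign, map_one]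

theorem residue_sign_ne_zero : residue 𝒪 P.ε ≠ 0 := left_ne_zero_of_mul_eq_one P.residue_sign

theorem trace_frobMat : P.frobMat.trace = (P.q : ResidueField 𝒪) + 1 := by
  rw [frobMat, trace_smul, P.trace_frob, smul_eq_mul, ← map_mul, ← mul_assoc, P.sign, one_mul]
  simp

theorem det_frobMat : P.frobMat.det = (P.q : ResidueField 𝒪) := by
  rw [frobMat, det_smul, P.det_frob, Fintype.card_fin, pow_two, P.residue_sign, one_mul,
    map_natCast]

theorem rbar_frob : rbar bbar P.φ = residue 𝒪 P.ε • P.frobMat := by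
  rw [frobMat, smul_smul, P.residue_sign, one_smul]

theorem frobMat_commute {S : M2 (ResidueField 𝒪)} (c : ResidueField 𝒪)
    (h : rbar bbar P.φ * S = c • (S * rbar bbar P.φ)) :
    P.frobMat * S = c • (S * P.frobMat) := by
  rw [frobMat, smul_mul_assoc, h, mul_smul_comm, smul_comm]

theorem residue_two_ne_zero [CharP (ResidueField 𝒪) p] (hp2 : p ≠ 2) : (2 : ResidueField 𝒪) ≠ 0 :=
  Ring.two_ne_zero (ringChar.eq (ResidueField 𝒪) p ▸ hp2)

theorem q_ne_zero [Fact p.Prime] [CharP (ResidueField 𝒪) p] : (P.q : ResidueField 𝒪) ≠ 0 := fun h =>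
  P.ne_p (((Nat.prime_dvd_prime_iff_eq (Fact.out : p.Prime) P.prime).mp
    ((CharP.cast_eq_zero_iff (ResidueField 𝒪) p P.q).mp h)).symm)

theorem exists_level : ∃ U ∈ lvQ, ∀ s ∈ U, rbar bbar s = 1 := by
  obtain ⟨L, hL, hL1⟩ := ρbar.factorsThroughFiniteLevel
  refine ⟨L.fixingSubgroup, fixingSubgroup_mem_krull L, fun s hs => ?_⟩
  show LinearMap.toMatrixAlgEquiv bbar (ρbar.ρ s) = 1
  rw [hL1 s fun x hx => (IntermediateField.mem_fixingSubgroup_iff _ _).1 hs x hx, map_one]

/-- The decomposition group at the standard place maps to the conjugate powers of Frobenius. -/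
theorem exists_conj_power : ∃ g : AG, ∀ s ∈ decQ P.q, ∃ i : ℕ,
    rbar bbar g * rbar bbar s * rbar bbar g⁻¹ = rbar bbar P.φ ^ i := by
  obtain ⟨g, hg⟩ := Gal.exists_smul_eq P.prime (padicPlace_liesOverPrime (q := P.q)) P.lies
  refine ⟨g, fun s hs => ?_⟩
  have h1 : g * s * g⁻¹ ∈ P.A.decompositionSubgroup ℚ := by
    have h1 := Gal.conj_mem_decomposition hs g
    rwa [hg] at h1
  obtain ⟨U, hU, hU1⟩ := (exists_level (bbar := bbar))
  obtain ⟨i, ι, hι, hu⟩ := exists_frob_pow_mul P.prime P.lies P.frob hU h1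
  refine ⟨i, ?_⟩
  have h2 := hU1 _ hu
  have h3 : rbar bbar (g * s * g⁻¹) = rbar bbar (P.φ ^ i * ι) := by
    conv_lhs => rw [← mul_inv_cancel_left (P.φ ^ i * ι) (g * s * g⁻¹), map_mul, h2, mul_one]
  rw [map_mul (rbar bbar) (P.φ ^ i) ι, P.inertia ι hι, mul_one, map_pow] at h3
  rw [← h3, map_mul, map_mul]

/-- Invariants at a prime with nonscalar Frobenius. -/
theorem one_le_invariants (h2 : (2 : ResidueField 𝒪) ≠ 0)
    (hns : ∀ c : ResidueField 𝒪, rbar bbar P.φ ≠ c • 1) :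
    1 ≤ finrank (ResidueField 𝒪)
      (Representation.invariants (resRep (adRep (rbar bbar)) (decQ P.q))) := by
  obtain ⟨g, hg⟩ := P.exists_conj_power
  set Φ := rbar bbar P.φ with hΦ
  set X₀ : M2 (ResidueField 𝒪) := Φ - (Φ.trace / 2) • 1 with hX₀
  have htr : X₀ ∈ sl2 (ResidueField 𝒪) := by
    rw [sl2, LinearMap.mem_ker, traceLinearMap_apply, hX₀, trace_sub, trace_smul, trace_one,
      smul_eq_mul, Fintype.card_fin, Nat.cast_ofNat, div_mul_cancel₀ _ h2, sub_self]
  set Y : sl2 (ResidueField 𝒪) :=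
    ⟨rbar bbar g⁻¹ * X₀ * rbar bbar g, by simpa using conj_mem_sl2 (rbar bbar) g⁻¹ htr⟩ with hY
  have hne : Y ≠ 0 := fun h => by
    have h1 :
        rbar bbar g * ((Y : sl2 (ResidueField 𝒪)) : M2 (ResidueField 𝒪)) * rbar bbar g⁻¹ = X₀ := by
      show rbar bbar g * (rbar bbar g⁻¹ * X₀ * rbar bbar g) * rbar bbar g⁻¹ = X₀
      rw [← mul_assoc, ← mul_assoc, rbar_mul_inv, one_mul, mul_assoc, rbar_mul_inv, mul_one]
    rw [h] at h1
    refine hns (Φ.trace / 2) (sub_eq_zero.mp ?_)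
    rw [← hX₀, ← h1]
    simp
  rw [Submodule.one_le_finrank_iff]
  refine Submodule.ne_bot_iff _ |>.mpr ⟨Y, fun s => Subtype.ext ?_, hne⟩
  obtain ⟨i, hi⟩ := hg s s.2
  show rbar bbar s * (rbar bbar g⁻¹ * X₀ * rbar bbar g) * rbar bbar (s : AG)⁻¹ = _
  have hcomm : Φ ^ i * X₀ = X₀ * Φ ^ i := by
    rw [hX₀, mul_sub, sub_mul, mul_smul_comm, smul_mul_assoc, mul_one, one_mul, ← pow_succ,
      ← pow_succ']
  have e1 : rbar bbar s * rbar bbar g⁻¹ = rbar bbar g⁻¹ * Φ ^ i := by
    rw [← hi, ← mul_assoc, ← mul_assoc, rbar_inv_mul, one_mul]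
  calc rbar bbar s * (rbar bbar g⁻¹ * X₀ * rbar bbar g) * rbar bbar (s : AG)⁻¹
      = (rbar bbar s * rbar bbar g⁻¹) * X₀ * rbar bbar g * rbar bbar (s : AG)⁻¹ := by
        simp only [mul_assoc]
    _ = rbar bbar g⁻¹ * X₀ * (Φ ^ i * (rbar bbar g * rbar bbar (s : AG)⁻¹)) := by
        rw [e1, mul_assoc (rbar bbar g⁻¹) (Φ ^ i) X₀, hcomm]
        simp only [mul_assoc]
    _ = rbar bbar g⁻¹ * X₀ * rbar bbar g := by
        rw [← hi]
        simp only [← map_mul, mul_assoc, inv_mul_cancel_left, mul_inv_cancel, mul_one]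

theorem invariants_eq_three {c : ResidueField 𝒪} (hs : rbar bbar P.φ = c • 1) :
    finrank (ResidueField 𝒪)
      (Representation.invariants (resRep (adRep (rbar bbar)) (decQ P.q))) = 3 := by
  obtain ⟨g, hg⟩ := P.exists_conj_power
  rw [show Representation.invariants (resRep (adRep (rbar bbar)) (decQ P.q)) = ⊤ from
    Submodule.eq_top_iff'.2 fun X s => ?_, finrank_top, finrank_sl2]
  obtain ⟨i, hi⟩ := hg s s.2
  rw [hs, smul_pow, one_pow] at hi
  have h1 : rbar bbar (s : AG) = c ^ i • 1 := by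
    calc rbar bbar (s : AG)
        = rbar bbar g⁻¹ * (rbar bbar g * rbar bbar s * rbar bbar g⁻¹) * rbar bbar g := by
          simp only [← map_mul]
          congr 1
          group
      _ = _ := by rw [hi, mul_smul_comm, mul_one, smul_mul_assoc, rbar_inv_mul]
  refine Subtype.ext ?_
  show rbar bbar s * (X : M2 (ResidueField 𝒪)) * rbar bbar (s : AG)⁻¹ = X
  rw [h1, smul_mul_assoc, one_mul, ← mul_one (X : M2 (ResidueField 𝒪)), ← mul_smul_comm, ← h1,
    mul_assoc, rbar_mul_inv]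

theorem algebraMap_sign (T : Type) [CommRing T] [Algebra 𝒪 T] :
    algebraMap 𝒪 T P.ε * algebraMap 𝒪 T P.ε = 1 := by rw [← map_mul, P.sign, map_one]

/-- In characteristic zero `q ^ 2` is not one. -/
theorem q_mul_self_ne_one (F : Type) [CommRing F] [CharZero F] : (P.q : F) * (P.q : F) ≠ 1 := by
  have := P.prime.one_lt
  exact_mod_cast (Nat.one_lt_mul_iff.mpr ⟨by omega, by omega, Or.inl this⟩).ne'

/-- The trace of a lift that is `ε` times `q + 1`. -/
def trConst : 𝒪 := P.ε * ((P.q : 𝒪) + 1)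

/-- The matrix with `q + 1` on the diagonal and `t` off it. -/
def degMat {n : ℕ} (t : PS (Fin n) 𝒪) (a b : Fin 2) : PS (Fin n) 𝒪 :=
  if a = b then algebraMap 𝒪 _ ((P.q : 𝒪) + 1) else t

theorem degMat_det [IsAdicComplete (maximalIdeal 𝒪) 𝒪] {e : ℕ} (l : LocalMap 𝒪 e) {t : PS (Fin e) 𝒪}
    (ht : l.hom t = algebraMap 𝒪 _ P.trConst) :
    l.hom (P.degMat t 0 0 * P.degMat t 1 1 - P.degMat t 0 1 * P.degMat t 1 0) = 0 := by
  simp only [degMat, if_true, zero_ne_one, one_ne_zero, if_false, map_sub, map_mul,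
    AlgHom.commutes, ht]
  rw [← map_mul, ← map_mul, ← map_sub, trConst, show ((P.q : 𝒪) + 1) * ((P.q : 𝒪) + 1) -
    P.ε * ((P.q : 𝒪) + 1) * (P.ε * ((P.q : 𝒪) + 1)) = 0 by
      linear_combination -((P.q : 𝒪) + 1) ^ 2 * P.sign, map_zero]

theorem degMat_val {T : Type} [CommRing T] [IsLocalRing T] [Algebra 𝒪 T]
    [IsAdicComplete (maximalIdeal T) T] {n : ℕ} {v : Fin n → T} {hv : ∀ c, v c ∈ maximalIdeal T}
    {t : PS (Fin n) 𝒪} {x : T} (ht : evalSeries v hv t = x) (a b : Fin 2) :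
    evalSeries v hv (P.degMat t a b) = !![(P.q : T) + 1, x; x, (P.q : T) + 1] a b := by
  fin_cases a <;> fin_cases b <;> simp [degMat, ht]

section Lift

variable {P} {T : Type} [CommRing T] [IsLocalRing T] [Algebra 𝒪 T]
  {Φ N : Matrix (Fin 2) (Fin 2) T}

/-- The map of residue fields at a lift. -/
def IsLift.resHom (h : P.IsLift Φ N) : ResidueField 𝒪 →+* ResidueField T :=
  Ideal.Quotient.lift (maximalIdeal 𝒪) ((residue T).comp (algebraMap 𝒪 T)) fun c hc => by
    rw [RingHom.comp_apply, residue_eq_zero_iff]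
    exact h.loc c hc

theorem IsLift.resHom_residue (h : P.IsLift Φ N) (a : 𝒪) :
    h.resHom (residue 𝒪 a) = residue T (algebraMap 𝒪 T a) := rfl

theorem IsLift.residue_frob (h : P.IsLift Φ N) (i j : Fin 2) :
    residue T (Φ i j) = h.resHom (rbar bbar P.φ i j) := by
  obtain ⟨a, ha⟩ := Ideal.Quotient.mk_surjective (rbar bbar P.φ i j)
  have h1 := h.frob i j a ha
  rw [← residue_eq_zero_iff, map_sub, sub_eq_zero] at h1
  rw [h1, ← ha]
  rfl

theorem IsLift.trace_sub_mem (h : P.IsLift Φ N) :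
    Φ.trace - algebraMap 𝒪 T P.trConst ∈ maximalIdeal T := by
  rw [← residue_eq_zero_iff, map_sub, trace_fin_two, map_add, h.residue_frob, h.residue_frob,
    ← map_add, ← trace_fin_two, P.trace_frob, h.resHom_residue, trConst, sub_self]

theorem IsLift.one_frob_sub_mem (h : P.IsLift Φ N) (a : 𝒪)
    (hs : rbar bbar P.φ = residue 𝒪 a • 1) (i j : Fin 2) :
    Φ i j - (if i = j then algebraMap 𝒪 T a else 0) ∈ maximalIdeal T := by
  rw [← residue_eq_zero_iff, map_sub, h.residue_frob, hs]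
  by_cases hij : i = j
  · subst hij
    simp [h.resHom_residue]
  · simp [hij]

/-- The other sign forces `q` to be `-1` residually. -/
theorem IsLift.add_one_eq_zero (h : P.IsLift Φ N) (h2 : (2 : ResidueField 𝒪) ≠ 0)
    (ht : Φ.trace = -(algebraMap 𝒪 T P.ε * ((P.q : T) + 1))) : (P.q : ResidueField 𝒪) + 1 = 0 := by
  have h1 := h.trace_sub_mem
  rw [ht, show -(algebraMap 𝒪 T P.ε * ((P.q : T) + 1)) - algebraMap 𝒪 T P.trConst =
    -algebraMap 𝒪 T (2 * P.trConst) by simp [trConst, map_ofNat]; ring, neg_mem_iff,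
    ← residue_eq_zero_iff,
    ← h.resHom_residue, map_eq_zero_iff _ h.resHom.injective, map_mul, map_ofNat, trConst,
    map_mul] at h1
  have := (mul_eq_zero.mp ((mul_eq_zero.mp h1).resolve_left h2)).resolve_left P.residue_sign_ne_zero
  simpa using this

/-- Nonzero monodromy at a point: the trace is `± ε (q + 1)`. -/
theorem trace_of_ne_zero [IsDomain T] [CharZero T] (h : P.IsLift Φ N) (hN : N ≠ 0)
    (hΦN : Φ * N = (P.q : T) • (N * Φ)) :
    Φ.trace = algebraMap 𝒪 T P.ε * ((P.q : T) + 1) ∨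
      Φ.trace = -(algebraMap 𝒪 T P.ε * ((P.q : T) + 1)) := by
  have hε : algebraMap 𝒪 T P.ε = 1 ∨ algebraMap 𝒪 T P.ε = -1 := by
    rw [← mul_self_eq_one_iff, ← map_mul, P.sign, map_one]
  rcases Scalar.trace_eq_of_monodromy (Nat.cast_ne_zero.mpr P.prime.ne_zero)
    (by exact_mod_cast P.prime.ne_one) Φ N h.det hN hΦN with e | e <;>
    rcases hε with e' | e' <;> rw [e, e'] <;> simp

end Lift

section Tangent

variable {P} {T : Type} [CommRing T] [IsLocalRing T] [Algebra 𝒪 T]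
  [IsLocalHom (algebraMap 𝒪 T)] {hres : Function.Surjective (residue T ∘ algebraMap 𝒪 T)}
  {ρ : GaloisRepAdic T} {b : Basis (Fin 2) T ρ.V} (hb : Adapted bbar hres ρ b)
  (hdet : ρ.DetIsCyclotomic p) (δ : tangent hres)

variable (P) in
/-- The derivative of monodromy. -/
def monoTan : M2 (ResidueField 𝒪) := tanMat ρ b (δ : T → ResidueField 𝒪) P.σ

theorem tangent_sub (x y : T) : (δ : T → ResidueField 𝒪) (x - y) =
    (δ : T → ResidueField 𝒪) x - (δ : T → ResidueField 𝒪) y := by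
  have := δ.2.1 (x - y) y
  rw [sub_add_cancel] at this
  rw [this, add_sub_cancel_right]

theorem tangent_natCast (n : ℕ) : (δ : T → ResidueField 𝒪) (n : T) = 0 := by
  rw [← map_natCast (algebraMap 𝒪 T) n]; exact δ.2.2.1 _

theorem tangent_mono_entry (i j : Fin 2) :
    (δ : T → ResidueField 𝒪) ((matrixRep b ρ.ρ P.σ - 1) i j) = P.monoTan (b := b) δ i j := by
  rw [Matrix.sub_apply, tangent_sub]
  have : (δ : T → ResidueField 𝒪) ((1 : Matrix (Fin 2) (Fin 2) T) i j) = 0 := by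
    by_cases hij : i = j
    · subst hij; simpa using tangent_natCast δ 1
    · simpa [hij] using tangent_natCast δ 0
  rw [this, sub_zero]
  rfl

include hb in
/-- A coordinate `((a Φ + c) N) i j` has derivative `((a Φ + c) S) i j`. -/
theorem tangent_mono_coord (a : 𝒪) (c : ℤ) (i j : Fin 2) :
    (δ : T → ResidueField 𝒪) (((algebraMap 𝒪 T a • matrixRep b ρ.ρ P.φ + (c : T) • 1) *
        (matrixRep b ρ.ρ P.σ - 1)) i j) =
      ((residue 𝒪 a • rbar bbar P.φ + (c : ResidueField 𝒪) • 1) * P.monoTan (b := b) δ) i j := by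
  set M := algebraMap 𝒪 T a • matrixRep b ρ.ρ P.φ + (c : T) • 1
  set N := matrixRep b ρ.ρ P.σ - 1
  have hM : ∀ k, toRes hres (M i k) =
      (residue 𝒪 a • rbar bbar P.φ + (c : ResidueField 𝒪) • 1 : M2 (ResidueField 𝒪)) i k :=
    fun k => by
      simp only [M, Matrix.add_apply, Matrix.smul_apply, smul_eq_mul, map_add, map_mul,
        toRes_algebraMap, toRes_entry hb, map_intCast]
      by_cases hik : i = k
      · subst hik; simp
      · simp [hik]
  have hN : ∀ k, toRes hres (N k j) = 0 := fun k => by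
    simp only [N, Matrix.sub_apply, map_sub, toRes_entry hb, P.inertia _ P.tame.1]
    by_cases hkj : k = j
    · subst hkj; simp
    · simp [hkj]
  simp only [Matrix.mul_apply, Fin.sum_univ_two]
  rw [δ.2.1, δ.2.2.2, δ.2.2.2]
  simp only [hM, hN, zero_mul, add_zero, N, tangent_mono_entry]

theorem adRep_inertia {τ : AG} (hτ : τ ∈ P.A.inertiaSubgroupIn ℚ) :
    adRep (rbar bbar) τ = 1 := adRep_eq_one _ (P.inertia τ hτ)

variable [Fact p.Prime]

include hb in
theorem coe_tanCocycle_mono : ((tanCocycle hb hdet δ P.σ : sl2 (ResidueField 𝒪)) :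
    M2 (ResidueField 𝒪)) = P.monoTan (b := b) δ := by
  rw [coe_tanCocycle, P.inertia _ (inv_mem P.tame.1), mul_one]
  rfl

variable [CharP (ResidueField 𝒪) p]

include hb hdet in
/-- The tame relation for the derivative of monodromy. -/
theorem monoTan_spec : (P.monoTan (b := b) δ).trace = 0 ∧
    P.frobMat * P.monoTan (b := b) δ =
      (P.q : ResidueField 𝒪) • (P.monoTan (b := b) δ * P.frobMat) := by
  set c := tanCocycle hb hdet δ with hc
  refine ⟨?_, P.frobMat_commute _ ?_⟩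
  · rw [← coe_tanCocycle_mono hb hdet δ]
    exact (tanCocycle hb hdet δ P.σ).2
  obtain ⟨U, hU, hU1⟩ := (exists_level (bbar := bbar))
  have h1 : c (P.φ * P.σ * P.φ⁻¹) = P.q • c P.σ :=
    cocycle_frob_conj (adRep (rbar bbar)) (Fact.out : p.Prime) P.prime P.ne_p.symm P.lies hU
      (fun s hs => adRep_eq_one _ (hU1 s hs)) (tanCocycle_mem_Z1 hb hdet δ)
      (fun s hs => adRep_inertia hs) P.frob P.tame.1
  have h2 : c (P.φ * P.σ * P.φ⁻¹) = adRep (rbar bbar) P.φ (c P.σ) := by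
    obtain ⟨-, hcm⟩ := mem_Z1.1 (tanCocycle_mem_Z1 hb hdet δ)
    have h0 := hcm P.φ P.φ⁻¹
    rw [mul_inv_cancel, Z1_apply_one (tanCocycle_mem_Z1 hb hdet δ)] at h0
    rw [mul_assoc, hc, hcm, hcm, adRep_inertia P.tame.1, Module.End.one_apply, map_add,
      add_comm (adRep (rbar bbar) P.φ (tanCocycle hb hdet δ P.φ⁻¹)), add_assoc, ← h0, add_zero]
  rw [h2] at h1
  have h3 := congrArg (fun x : sl2 (ResidueField 𝒪) => (x : M2 (ResidueField 𝒪))) h1
  rw [← Nat.cast_smul_eq_nsmul (ResidueField 𝒪)] at h3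
  simp only [coe_adRep, hc, coe_tanCocycle_mono, Submodule.coe_smul] at h3
  calc rbar bbar P.φ * P.monoTan (b := b) δ
      = rbar bbar P.φ * P.monoTan (b := b) δ * rbar bbar P.φ⁻¹ * rbar bbar P.φ := by
        rw [mul_assoc _ (rbar bbar P.φ⁻¹), rbar_inv_mul, mul_one]
    _ = _ := by rw [h3, smul_mul_assoc]

include hb in
/-- At a prime with nonscalar Frobenius, a tangent vector killing monodromy and the trace gives a
class trivial on the decomposition group. -/
theorem tanCocycle_mem_locB1 (h2 : (2 : ResidueField 𝒪) ≠ 0)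
    (hns : ∀ c : ResidueField 𝒪, rbar bbar P.φ ≠ c • 1) (hS : P.monoTan (b := b) δ = 0)
    (htr : (δ : T → ResidueField 𝒪) (matrixRep b ρ.ρ P.φ).trace = 0) :
    tanCocycle hb hdet δ ∈ locB1 (adRep (rbar bbar)) (decQ P.q) := by
  set Φ := rbar bbar P.φ with hΦ
  set D := tanMat ρ b (δ : T → ResidueField 𝒪) P.φ with hD
  have hDtr : D.trace = 0 := by
    rw [hD, tanMat, trace_fin_two, map_apply, map_apply, ← δ.2.1, ← trace_fin_two]
    exact htr
  have hd : Φ.det ≠ 0 := by
    rw [hΦ, P.det_frob, map_natCast]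
    exact P.q_ne_zero
  have hadj : rbar bbar P.φ⁻¹ = Φ.det⁻¹ • (Φ.trace • 1 - Φ) := by
    have e : Φ * (Φ.det⁻¹ • (Φ.trace • 1 - Φ)) = 1 := by
      rw [mul_smul_comm, mul_sub, mul_smul_comm, mul_one, LocalData.mul_self_eq, sub_sub_cancel,
        smul_smul, inv_mul_cancel₀ hd, one_smul]
    calc rbar bbar P.φ⁻¹ = rbar bbar P.φ⁻¹ * (Φ * (Φ.det⁻¹ • (Φ.trace • 1 - Φ))) := by
          rw [e, mul_one]
      _ = _ := by rw [hΦ, ← mul_assoc, rbar_inv_mul, one_mul]
  have hDΦ : (D * Φ).trace = 0 := by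
    have h1 := trace_tanMat_mul_eq_zero hb δ.2 (det_eq_zero_of_isCyclotomic (b := b) δ.2 hdet P.φ)
    rw [hadj, mul_smul_comm, trace_smul, mul_sub, mul_smul_comm, mul_one, trace_sub, trace_smul,
      hDtr, smul_zero, zero_sub, smul_neg, neg_eq_zero, smul_eq_mul, mul_eq_zero] at h1
    exact h1.resolve_left (inv_ne_zero hd)
  obtain ⟨X, hX⟩ := LocalData.exists_commutator hns hDtr hDΦ
  let X' : sl2 (ResidueField 𝒪) := ⟨X - (X.trace / 2) • 1, by
    rw [sl2, LinearMap.mem_ker, traceLinearMap_apply, trace_sub, trace_smul, trace_one,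
      smul_eq_mul, Fintype.card_fin, Nat.cast_ofNat, div_mul_cancel₀ _ h2, sub_self]⟩
  obtain ⟨U, hU, hU1⟩ := (exists_level (bbar := bbar))
  have hd0 : d0 (adRep (rbar bbar)) X' ∈ Z1 lvQ (adRep (rbar bbar)) :=
    TW.Flat.d0_mem_Z1 (exists_level (bbar := bbar)) X'
  have key : ∀ g ∈ P.A.decompositionSubgroup ℚ,
      (tanCocycle hb hdet δ - d0 (adRep (rbar bbar)) X') g = 0 := by
    refine Scalar.eq_zero_on_decomposition (adRep (rbar bbar)) P.prime hU
      (fun s hs => adRep_eq_one _ (hU1 s hs))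
      (sub_mem (tanCocycle_mem_Z1 hb hdet δ) hd0) P.lies (fun s hs => adRep_inertia hs) P.frob
      P.tame ?_ ?_
    · rw [Pi.sub_apply, d0_apply, adRep_inertia P.tame.1, Module.End.one_apply, sub_self,
        sub_zero]
      refine Subtype.ext ?_
      rw [coe_tanCocycle_mono, hS, ZeroMemClass.coe_zero]
    · refine Subtype.ext ?_
      rw [Pi.sub_apply, d0_apply, AddSubgroupClass.coe_sub, AddSubgroupClass.coe_sub,
        coe_tanCocycle, coe_adRep, ZeroMemClass.coe_zero, ← hΦ, ← hD, ← hX]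
      simp only [X', sub_mul, mul_sub, smul_mul_assoc, mul_smul_comm, mul_one,
        rbar_mul_inv, hΦ]
      rw [mul_assoc X, rbar_mul_inv, mul_one]
      abel
  obtain ⟨g, hg⟩ := Gal.exists_smul_eq P.prime (padicPlace_liesOverPrime (q := P.q)) P.lies
  refine locB1_conj (tanCocycle_mem_Z1 hb hdet δ) g⁻¹ (fun s hs => ?_)
    ⟨X', fun s hs => by
      have := key s hs
      rwa [Pi.sub_apply, sub_eq_zero, d0_apply] at this⟩
  have h1 := Gal.conj_mem_decomposition hs g
  rw [hg] at h1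
  rwa [inv_inv]

end Tangent

end RaisedPrime

end Fermat.Agent.Raising
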