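import Fermat.Agent.Raising.LocalData.Common

/-!
# Nonscalar Frobenius, `q` not congruent to `-1`

Coordinates: one entry `n` of monodromy and `a = tr Φ - ε (q + 1)`.
-/

noncomputable section

namespace Fermat.Agent.Raising

open IsLocalRing Matrix Module Fermat.Agent.LevelLowering Fermat.Agent.Gal Fermat.Agent.TW
  Fermat.Agent.PT

local notation "PS" => MvPowerSeries

variable {𝒪 : Type} [CommRing 𝒪] [IsDomain 𝒪] [IsDiscreteValuationRing 𝒪]
  [IsAdicComplete (maximalIdeal 𝒪) 𝒪] {p : ℕ} [Fact p.Prime]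
variable {ρbar : ResidualGaloisRep (ResidueField 𝒪)}
  {bbar : Basis (Fin 2) (ResidueField 𝒪) ρbar.V}

section Reaches

variable {F : Type} [CommRing F] [IsLocalRing F] [Algebra 𝒪 F] [IsAdicComplete (maximalIdeal F) F]

lemma ordUr_reaches {x : Fin 2 → F} (hx : ∀ c, x c ∈ maximalIdeal F) (h : x 0 = 0) :
    (ordUr 𝒪).Reaches x :=
  (ordUr_passes hx h).reaches
    (![0, MvPolynomial.X 0] : Fin 2 → MvPolynomial (Fin 1) 𝒪)
    (fun c => by fin_cases c <;> simp [ordUr]) hx

lemma ordSt_reaches {x : Fin 2 → F} (hx : ∀ c, x c ∈ maximalIdeal F) (h : x 1 = 0) :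
    (ordSt 𝒪).Reaches x :=
  (ordSt_passes hx h).reaches
    (![MvPolynomial.X 0, 0] : Fin 2 → MvPolynomial (Fin 1) 𝒪)
    (fun c => by fin_cases c <;> simp [ordSt]) hx

end Reaches

variable (P : RaisedPrime p ρbar bbar)

/-- The coordinates `(n, a)` with `n` the entry `ij` of monodromy. -/
def ordCoord (ij : Fin 2 × Fin 2) {T : Type} [CommRing T] [Algebra 𝒪 T]
    (Φ N : Matrix (Fin 2) (Fin 2) T) : Fin 2 → T :=
  ![N ij.1 ij.2, Φ.trace - algebraMap 𝒪 T P.trConst]

/-- **The local data at a nonscalar prime with `q` not `-1`.** -/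
theorem exists_localKind_ord [CharP (ResidueField 𝒪) p] (hp2 : p ≠ 2)
    (hns : ∀ c : ResidueField 𝒪, rbar bbar P.φ ≠ c • 1)
    (hq : (P.q : ResidueField 𝒪) + 1 ≠ 0) : Nonempty (LocalKind P) := by
  have h2 : (2 : ResidueField 𝒪) ≠ 0 := RaisedPrime.residue_two_ne_zero hp2
  obtain ⟨ij, hij⟩ := LocalData.exists_twist_entry hq P.trace_frobMat P.det_frobMat fun h =>
    hns (residue 𝒪 P.ε * (P.q : ResidueField 𝒪)) (by rw [P.rbar_frob, h, smul_smul])
  have hmem : ∀ (T : Type) [CommRing T] [IsLocalRing T] [Algebra 𝒪 T]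
      [IsAdicComplete (maximalIdeal T) T] {Φ N : Matrix (Fin 2) (Fin 2) T},
      P.IsLift Φ N → ∀ c, ordCoord P ij Φ N c ∈ maximalIdeal T := fun T _ _ _ _ Φ N h c => by
    fin_cases c
    · exact h.mono _ _
    · exact h.trace_sub_mem
  exact ⟨{
    e := 2
    B := ordBlock 𝒪
    w_le := P.one_le_invariants h2 hns
    coord := fun T _ _ _ _ Φ N => ordCoord P ij Φ N
    coord_mem := hmem
    coord_map := fun T T' _ _ _ _ _ _ _ _ f _ Φ N _ c => by
      fin_cases c
      · rfl
      · simp [ordCoord, trace_fin_two, AlgHom.commutes]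
    reach := fun F _ _ _ _ _ _ Φ N h _ hΦN => by
      have hx := hmem F h
      have hur : N = 0 → (ordUr 𝒪).Reaches (ordCoord P ij Φ N) := fun hN =>
        ordUr_reaches hx (by simp [ordCoord, hN])
      have hst : Φ.trace = algebraMap 𝒪 F P.ε * ((P.q : F) + 1) →
          (ordSt 𝒪).Reaches (ordCoord P ij Φ N) := fun ht =>
        ordSt_reaches hx (by simp [ordCoord, RaisedPrime.trConst, ht])
      have hno : Φ.trace ≠ -(algebraMap 𝒪 F P.ε * ((P.q : F) + 1)) := fun ht =>
        hq (h.add_one_eq_zero h2 ht)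
      refine ⟨?_, hur, hst, fun ht => absurd ht hno⟩
      by_cases hN : N = 0
      · exact ⟨(ordBlock 𝒪).ur, hur hN⟩
      · exact ⟨(ordBlock 𝒪).st, hst ((RaisedPrime.trace_of_ne_zero h hN hΦN).resolve_right hno)⟩
    G := P.degMat (MvPowerSeries.X 1 + algebraMap 𝒪 _ P.trConst)
    G_det := P.degMat_det _ (by
      rw [map_add, AlgHom.commutes, LocalMap.hom_X]
      exact zero_add _)
    G_val := fun T _ _ _ _ Φ N h a b => P.degMat_val (by
      rw [map_add, AlgHom.commutes, evalSeries_X]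
      exact sub_add_cancel _ _) a b
    tangent_zero := fun T _ _ _ _ _ _ hres ρ b hb hdet δ hδ => by
      refine RaisedPrime.tanCocycle_mem_locB1 hb hdet δ h2 hns ?_ ?_
      · obtain ⟨htr, htw⟩ := RaisedPrime.monoTan_spec (P := P) hb hdet δ
        refine hij _ htr htw ?_
        rw [← RaisedPrime.tangent_mono_entry]
        exact hδ 0
      · have h1 := hδ 1
        simp only [ordCoord, Matrix.cons_val_one, Matrix.cons_val_zero,
          RaisedPrime.tangent_sub] at h1
        rwa [δ.2.2.1, sub_zero] at h1 }⟩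

end Fermat.Agent.Raising
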